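/-
S44, block X, sub-block COVER (owner helper132): definitions.

EVERYTHING IS STATED OVER AN ABSTRACT FIELD `K` WITH `[Algebra ℚ K] [Algebra K Kbar]`
(in the application `K = K0 A`, the inertia field; never work with `K0 A` directly: instance
problems).  `I` is a subgroup of `G_ℚ` (the inertia group), `K` its fixed field (`IsFix`).

`L` a level, `U ∈ FN L` a Kummer unit with leading coefficient one, `W ∈ ℚ̄((q))` its normalised
`p`-th root.
* `FYb L W`   : the field `F̄_Y = FN L (W)` inside `ℚ̄((q))`;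
* `FY K L W`  : its form over `K`: the series with coefficients in `K` whose image in `ℚ̄((q))`
                lies in `FYb L W`;
* `RootData`  : the hypotheses on `(U, W)`;
* `IsDeck`    : the deck transformation.
-/
import Fermat.Agent.S44.Defs
import Fermat.Agent.BAD.Bridge.Defs

set_option autoImplicit false

noncomputable section

namespace Fermat.Agent.S44.X.Cover

open ModularCurve AlgebraicCurve Fermat.Agent.S24 Fermat.Agent.GAL
open Fermat.Agent.BAD.Bridge

/-- The coefficientwise action of `G_ℚ` on `ℚ̄((q))`. -/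
abbrev gS (σ : S44.GQ) : LaurentSeries Kbar →+* LaurentSeries Kbar :=
  coeffMap (σ : Kbar →+* Kbar)

/-- `F̄_Y = FN L (W)`. -/
def FYb (L : ℕ) (W : LaurentSeries Kbar) : IntermediateField Kbar (LaurentSeries Kbar) :=
  IntermediateField.adjoin Kbar ((modularFunctionFieldBar L : Set (LaurentSeries Kbar)) ∪ {W})

theorem FN_le_FYb (L : ℕ) (W : LaurentSeries Kbar) : modularFunctionFieldBar L ≤ FYb L W :=
  fun _ hx => IntermediateField.subset_adjoin Kbar _ (Or.inl hx)

theorem W_mem_FYb (L : ℕ) (W : LaurentSeries Kbar) : W ∈ FYb L W :=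
  IntermediateField.subset_adjoin Kbar _ (Or.inr rfl)

/-- The inclusion `FN L → F̄_Y`. -/
def inclFYb (L : ℕ) (W : LaurentSeries Kbar) : FN L →ₐ[Kbar] FYb L W :=
  IntermediateField.inclusion (FN_le_FYb L W)

/-- `F̄_Y` as an algebra over `F̄_X`. -/
instance algFYb (L : ℕ) (W : LaurentSeries Kbar) : Algebra (FN L) (FYb L W) :=
  (inclFYb L W).toRingHom.toAlgebra

theorem algebraMap_FYb_eq (L : ℕ) (W : LaurentSeries Kbar) :
    algebraMap (FN L) (FYb L W) = (inclFYb L W).toRingHom :=
  RingHom.algebraMap_toAlgebra _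

@[simp] theorem coe_algebraMap_FYb (L : ℕ) (W : LaurentSeries Kbar) (z : FN L) :
    ((algebraMap (FN L) (FYb L W) z : FYb L W) : LaurentSeries Kbar) = z := by
  rw [algebraMap_FYb_eq]
  exact IntermediateField.coe_inclusion (FN_le_FYb L W) z

instance towerFYb (L : ℕ) (W : LaurentSeries Kbar) : IsScalarTower Kbar (FN L) (FYb L W) :=
  IsScalarTower.of_algebraMap_eq fun c => ((inclFYb L W).commutes c).symm

/-- The element `W` of `F̄_Y`. -/
def Wel (L : ℕ) (W : LaurentSeries Kbar) : FYb L W := ⟨W, W_mem_FYb L W⟩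

section K

variable (K : Type) [Field K] [Algebra ℚ K] [Algebra K Kbar]

/-- The embedding `K((q)) → ℚ̄((q))`. -/
abbrev cK : LaurentSeries K →+* LaurentSeries Kbar := coeffMap (algebraMap K Kbar)

/-- The form of `F̄_Y` over `K`. -/
def FY (L : ℕ) (W : LaurentSeries Kbar) : IntermediateField K (LaurentSeries K) where
  toSubalgebra :=
    { ((FYb L W).toSubfield.comap (cK K)).toSubring with
      algebraMap_mem' := by
        intro c
        show cK K (algebraMap K (LaurentSeries K) c) ∈ FYb L W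
        rw [S18.Descent.coeffMap_algebraMap']
        exact (FYb L W).algebraMap_mem _ }
  inv_mem' := fun x hx => ((FYb L W).toSubfield.comap (cK K)).inv_mem hx

theorem mem_FY_iff (L : ℕ) (W : LaurentSeries Kbar) (z : LaurentSeries K) :
    z ∈ FY K L W ↔ cK K z ∈ FYb L W := Iff.rfl

/-- Base change `F_Y → F̄_Y`. -/
def bcY (L : ℕ) (W : LaurentSeries Kbar) : FY K L W →+* FYb L W where
  toFun z := ⟨cK K (z : LaurentSeries K), z.2⟩
  map_one' := Subtype.ext (map_one (cK K))
  map_mul' _ _ := Subtype.ext (map_mul (cK K) _ _)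
  map_zero' := Subtype.ext (map_zero (cK K))
  map_add' _ _ := Subtype.ext (map_add (cK K) _ _)

@[simp] theorem coe_bcY (L : ℕ) (W : LaurentSeries Kbar) (z : FY K L W) :
    ((bcY K L W z : FYb L W) : LaurentSeries Kbar) = cK K (z : LaurentSeries K) := rfl

/-- Base change `F_X → F̄_X`. -/
def bcX (L : ℕ) : FK K L →+* FN L :=
  S18.Descent.baseChangeMap (modularFunctionFieldFull L) (algebraMap K Kbar)

@[simp] theorem coe_bcX (L : ℕ) (z : FK K L) :
    ((bcX K L z : FN L) : LaurentSeries Kbar) = cK K (z : LaurentSeries K) := rfl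

theorem FK_le_FY (L : ℕ) (W : LaurentSeries Kbar) :
    laurentBaseChange K (modularFunctionFieldFull L) ≤ FY K L W := by
  intro z hz
  exact FN_le_FYb L W (S18.Descent.coeffMap_mem_laurentBaseChange' _ hz)

/-- The inclusion `F_X → F_Y` over `K`. -/
def inclFY (L : ℕ) (W : LaurentSeries Kbar) : FK K L →ₐ[K] FY K L W :=
  IntermediateField.inclusion (FK_le_FY K L W)

/-- `F_Y` as an algebra over `F_X`. -/
instance algFY (L : ℕ) (W : LaurentSeries Kbar) : Algebra (FK K L) (FY K L W) :=
  (inclFY K L W).toRingHom.toAlgebra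

theorem algebraMap_FY_eq (L : ℕ) (W : LaurentSeries Kbar) :
    algebraMap (FK K L) (FY K L W) = (inclFY K L W).toRingHom :=
  RingHom.algebraMap_toAlgebra _

@[simp] theorem coe_algebraMap_FY (L : ℕ) (W : LaurentSeries Kbar) (z : FK K L) :
    ((algebraMap (FK K L) (FY K L W) z : FY K L W) : LaurentSeries K) = z := by
  rw [algebraMap_FY_eq]
  exact IntermediateField.coe_inclusion (FK_le_FY K L W) z

instance towerFY (L : ℕ) (W : LaurentSeries Kbar) : IsScalarTower K (FK K L) (FY K L W) :=
  IsScalarTower.of_algebraMap_eq fun c => ((inclFY K L W).commutes c).symm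

theorem bcY_algebraMap (L : ℕ) (W : LaurentSeries Kbar) (z : FK K L) :
    bcY K L W (algebraMap (FK K L) (FY K L W) z) = algebraMap (FN L) (FYb L W) (bcX K L z) := by
  apply Subtype.ext
  rw [coe_bcY, coe_algebraMap_FY, coe_algebraMap_FYb, coe_bcX]

/-- `K` is the fixed field of the subgroup `I` of `G_ℚ`. -/
def IsFix (I : Subgroup S44.GQ) : Prop :=
  ∀ x : Kbar, (∀ τ ∈ I, τ x = x) ↔ x ∈ (algebraMap K Kbar).range

variable {K}

/-- `σ` is the deck transformation of `F_Y / F_X` which becomes `γ : W ↦ ζ W` over `ℚ̄`. -/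
structure IsDeck {L : ℕ} {W : LaurentSeries Kbar} (ζ : Kbar)
    (σ : FY K L W ≃ₐ[FK K L] FY K L W) (γ : FYb L W ≃ₐ[FN L] FYb L W) : Prop where
  root : γ (Wel L W) = algebraMap Kbar (FYb L W) ζ * Wel L W
  comm : ∀ z : FY K L W, bcY K L W (σ z) = γ (bcY K L W z)

end K

/-- The hypotheses on the Kummer unit `U` and its normalised `p`-th root `W`: the group `I` acts on
the class of `U` through the cyclotomic character. -/
structure RootData (I : Subgroup S44.GQ) (p L : ℕ) (U : FN L) (W : LaurentSeries Kbar) :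
    Prop where
  pow : W ^ p = (U : LaurentSeries Kbar)
  nrm : W.leadingCoeff = 1
  kum : E.IsKum L p U
  notpow : ¬ ∃ g : FN L, U = g ^ p
  gal : ∀ τ ∈ I, ∀ m : ℕ, (∀ ζ : Kbar, ζ ^ p = 1 → τ ζ = ζ ^ m) →
    ∃ h : FN L, E.galF L τ U = U ^ m * h ^ p

end Fermat.Agent.S44.X.Cover

end
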