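/-
S44, block X, sub-block COVER (owner helper132): THE NODES OF THE INSTANCE (exact statements).

  NodeGaussFN : the Gauss valuation ring `G` of `FN L` attached to `A`, and its transform
                `G.comap w` by the Atkin-Lehner involution
  NodeTW      : the Hecke operator `T_ℓ` commutes with the Atkin-Lehner involution `w_p`
  NodeSetup   : from a `NewPair` to the data of the cover at level `L = M' * 4 * p`
-/
import Fermat.Agent.S44.X.Cover.Nodes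
import Fermat.Agent.C1.Defs

set_option autoImplicit false

noncomputable section

namespace Fermat.Agent.S44.X.Cover

open ModularCurve AlgebraicCurve Fermat.Agent.S24 Fermat.Agent.GAL
open Fermat.Agent.BAD.Bridge Fermat.Agent.S18

/-- `G` is the Gauss valuation ring of `FN L ⊆ ℚ̄((q))` attached to `A`. -/
def IsGaussFN (A : ValuationSubring Kbar) (L : ℕ) (G : ValuationSubring (FN L)) : Prop :=
  ∀ f : FN L, f ∈ G ↔ ∃ P Q : LaurentSeries A, E.red A Q ≠ 0 ∧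
    (f : LaurentSeries Kbar) * E.incl A Q = E.incl A P

/-- The transform of `G` by the Atkin-Lehner involution. -/
def wG {M q : ℕ} [NeZero M] [NeZero q] (D : C1.ALData M q) (G : ValuationSubring (FN (M * q))) :
    ValuationSubring (FN (M * q)) :=
  G.comap (D.w : FN (M * q) →+* FN (M * q))

/-- `T` preserves the deep congruences for `G`. -/
def TDeep {L ℓ : ℕ} [NeZero ℓ] (p : ℕ) (G : ValuationSubring (FN L)) (H : E.HeckeOp L ℓ) : Prop :=
  ∀ (n : ℕ) (f : FN L), Deep G p n f → Deep G p n (H.T f)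

/-- **Node TW.** -/
def NodeTW : Prop :=
  ∀ (M q ℓ : ℕ) [NeZero M] [NeZero q] [NeZero ℓ], q.Prime → ¬ q ∣ M → ℓ.Prime → ¬ ℓ ∣ M * q →
    ∀ (D : C1.ALData M q) (H : E.HeckeOp (M * q) ℓ) (u : FN (M * q)),
      D.w (H.T u) = H.T (D.w u)

/-- **Node GaussFN.** -/
def NodeGaussFN : Prop :=
  ∀ (A : ValuationSubring Kbar) (p M : ℕ) [NeZero M] [NeZero p], p.Prime → A.LiesOverPrime p →
    ¬ p ∣ M → ∃ G : ValuationSubring (FN (M * p)), IsGaussFN A (M * p) G ∧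
      GHyp A (S44.Iner A) (M * p) G ∧
      (∀ D : C1.ALData M p, GHyp A (S44.Iner A) (M * p) (wG D G)) ∧
      (∀ (ℓ : ℕ) [NeZero ℓ] (H : E.HeckeOp (M * p) ℓ), ℓ.Prime → ℓ ≠ p → TDeep p G H)

/-- **Node Setup.** -/
def NodeSetup : Prop :=
  ∀ (P : FreyPackage) (M' : ℕ) [NeZero M'], Squarefree (M' * P.p) →
    ∀ A : ValuationSubring S44.Qb, A.LiesOverPrime P.p →
    ∀ (W₀ : WeierstrassCurve ℤ) (u₀ u₁ : E.kum (M' * P.p) P.p), S44.NewPair P M' A W₀ u₀ u₁ →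
    ∀ (D : C1.ALData (M' * 4) P.p) (G : ValuationSubring (FN (M' * 4 * P.p))),
      IsGaussFN A (M' * 4 * P.p) G →
      ∃ (U U₁ : FN (M' * 4 * P.p)) (W : LaurentSeries Kbar),
        RootData (S44.Iner A) P.p (M' * 4 * P.p) U W ∧ U₁ ≠ 0 ∧
        E.IsKum (M' * 4 * P.p) P.p U₁ ∧
        (∀ τ ∈ S44.Iner A, ∃ (m : ℕ) (h : FN (M' * 4 * P.p)),
          E.galF (M' * 4 * P.p) τ U₁ = U₁ * U ^ m * h ^ P.p) ∧
        (∀ τ ∈ S44.stabU A u₀ u₁, ∃ g : FN (M' * 4 * P.p),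
          E.galF (M' * 4 * P.p) τ U₁ = U₁ * g ^ P.p) ∧
        (∀ ubar : LaurentSeries (S44.kA A), S44.IsRed A (S44.fn u₁) ubar → S44.IsRed A U₁ ubar) ∧
        (∀ n : ℕ, ∃ t : FN (M' * 4 * P.p), t ≠ 0 ∧ Deep G P.p n (U * t ^ P.p) ∧
          Deep (wG D G) P.p n (U * t ^ P.p)) ∧
        ∃ (ℓ : ℕ) (_ : NeZero ℓ) (H : E.HeckeOp (M' * 4 * P.p) ℓ) (a : ℕ)
          (g : FN (M' * 4 * P.p)), ℓ.Prime ∧ ℓ ≠ 2 ∧ ¬ ℓ ∣ M' * 4 * P.p ∧
          H.T U = U ^ a * g ^ P.p ∧ (a : ZMod P.p) ≠ (ℓ : ZMod P.p) + 1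

end Fermat.Agent.S44.X.Cover

end
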