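/-
S44, block X, sub-block COVER (owner helper132): THE NODES (exact statements, no proofs).

Notation: `K` abstract field with `[Algebra ℚ K] [Algebra K Kbar]`, `I` a subgroup of `G_ℚ` with fixed
field `K` (`IsFix K I`); `E = FK K L`, `F = FY K L W`, `F̄ = FYb L W = FN L (W)`, `W ^ p = U`.
`G` is a valuation ring of `FN L` (the Gauss valuation ring attached to `A`, or its transform by
the Atkin-Lehner involution).

  NodeField : `F / E` is cyclic of degree `p` with generator `σ` (deck transformation), `F̄ = F ℚ̄`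
  NodeDescU : descent of the second Kummer unit: `u = U₁ b ^ p ∈ F`, `σ u = a u β ^ p`
  NodeHor   : horizontal unramifiedness of `F / E`, and `HorDiv` for `u`
  NodeRat   : (Hecke trick) the deep representative is rational up to `1 + p G`
  NodeSheet : the sheets of `F` above `G ∩ E`
-/
import Fermat.Agent.S44.X.Cover.Defs
import Fermat.Agent.S44.X.PL.Defs2

set_option autoImplicit false

noncomputable section

namespace Fermat.Agent.S44.X.Cover

open ModularCurve AlgebraicCurve Fermat.Agent.S24 Fermat.Agent.GAL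
open Fermat.Agent.BAD.Bridge Fermat.Agent.S18

/-- `τ` acts on the `p`-th roots of unity through `ζ ↦ ζ ^ m`. -/
def ActsBy (p : ℕ) (τ : S44.GQ) (m : ℕ) : Prop := ∀ ζ : Kbar, ζ ^ p = 1 → τ ζ = ζ ^ m

/-- **Node Field.** -/
def NodeField : Prop :=
  ∀ (K : Type) [Field K] [Algebra ℚ K] [Algebra K Kbar] (I : Subgroup S44.GQ) (p L : ℕ)
    [NeZero L], p.Prime → IsFix K I → ∀ (U : FN L) (W : LaurentSeries Kbar),
    RootData I p L U W → ∀ ζ : Kbar, IsPrimitiveRoot ζ p →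
      (∀ τ ∈ I, ∀ z ∈ FYb L W, gS τ z ∈ FYb L W) ∧
      Submodule.span Kbar (Set.range (bcY K L W)) = ⊤ ∧
      ∃ (σ : FY K L W ≃ₐ[FK K L] FY K L W) (γ : FYb L W ≃ₐ[FN L] FYb L W),
        IsDeck ζ σ γ ∧ σ ^ p = 1 ∧ σ ≠ 1 ∧
        (∀ z, σ z = z → z ∈ (algebraMap (FK K L) (FY K L W)).range) ∧
        (∀ z, γ z = z → z ∈ (algebraMap (FN L) (FYb L W)).range) ∧
        ∀ τ ∈ I, ∀ z z' : FYb L W, (z' : LaurentSeries Kbar) = gS τ z →
          ((γ z' : FYb L W) : LaurentSeries Kbar) = gS τ (γ z : FYb L W)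

/-- **Node DescU.** -/
def NodeDescU : Prop :=
  ∀ (K : Type) [Field K] [Algebra ℚ K] [Algebra K Kbar] (I : Subgroup S44.GQ) (p L : ℕ)
    [NeZero L], p.Prime → IsFix K I → ∀ (U : FN L) (W : LaurentSeries Kbar),
    RootData I p L U W → ∀ ζ : Kbar, IsPrimitiveRoot ζ p →
    ∀ (σ : FY K L W ≃ₐ[FK K L] FY K L W) (γ : FYb L W ≃ₐ[FN L] FYb L W), IsDeck ζ σ γ →
    ∀ U₁ : FN L, U₁ ≠ 0 → E.IsKum L p U₁ →
      (∀ τ ∈ I, ∃ (m : ℕ) (h : FN L), E.galF L τ U₁ = U₁ * U ^ m * h ^ p) →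
      ∃ (u β : FY K L W) (a : K) (b : FYb L W) (α : Kbar), u ≠ 0 ∧ β ≠ 0 ∧ b ≠ 0 ∧
        bcY K L W u = algebraMap (FN L) (FYb L W) U₁ * b ^ p ∧
        σ u = algebraMap K (FY K L W) a * u * β ^ p ∧ α ^ p = algebraMap K Kbar a ∧
        ∀ τ ∈ I, (∃ g : FN L, E.galF L τ U₁ = U₁ * g ^ p) → τ α = α

/-- **Node Hor.** -/
def NodeHor : Prop :=
  ∀ (K : Type) [Field K] [Algebra ℚ K] [Algebra K Kbar] (I : Subgroup S44.GQ) (p L : ℕ)
    [NeZero L], p.Prime → IsFix K I → ∀ (U : FN L) (W : LaurentSeries Kbar),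
    RootData I p L U W →
      PL.HorE1 K (FK K L) (FY K L W) ∧
      ∀ (u : FY K L W) (U₁ : FN L) (b : FYb L W), u ≠ 0 → E.IsKum L p U₁ →
        bcY K L W u = algebraMap (FN L) (FYb L W) U₁ * b ^ p → S36.BP.HorDiv K p u

/-- `f ≡ 1` modulo `p ^ n` for the valuation ring `G`. -/
def Deep {F : Type*} [Field F] (G : ValuationSubring F) (p n : ℕ) (f : F) : Prop :=
  (f - 1) / (p : F) ^ n ∈ G

/-- What is used about the valuation ring `G` of `FN L`. -/
structure GHyp (A : ValuationSubring Kbar) (I : Subgroup S44.GQ) (L : ℕ)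
    (G : ValuationSubring (FN L)) : Prop where
  const : ∀ c : Kbar, algebraMap Kbar (FN L) c ∈ G ↔ c ∈ A
  gal : ∀ τ ∈ I, ∀ f : FN L, E.galF L τ f ∈ G ↔ f ∈ G
  /-- the value group of `G` is the value group of the constants -/
  arch : ∀ f : FN L, f ≠ 0 → ∃ c : Kbar, c ≠ 0 ∧ G.valuation (f / algebraMap Kbar (FN L) c) = 1

/-- `t` is a rational representative up to `1 + p G`. -/
def IsRat (I : Subgroup S44.GQ) (p L : ℕ) (W : LaurentSeries Kbar) (G : ValuationSubring (FN L))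
    (t : FN L) : Prop :=
  ∀ τ ∈ I, ∀ m : ℕ, ActsBy p τ m → ∀ r : FN L,
    gS τ (W * (t : LaurentSeries Kbar)) = (r : LaurentSeries Kbar) * (W * t) ^ m → Deep G p 1 r

/-- **Node Rat** (Hecke trick). -/
def NodeRat : Prop :=
  ∀ (A : ValuationSubring Kbar) (I : Subgroup S44.GQ) (p L ℓ : ℕ) [NeZero L] [NeZero ℓ],
    p.Prime → p ≠ 2 → A.LiesOverPrime p → ℓ.Prime → ℓ ≠ 2 →
    ∀ (U : FN L) (W : LaurentSeries Kbar), RootData I p L U W →
    ∀ (G : ValuationSubring (FN L)), GHyp A I L G →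
    ∀ (H : E.HeckeOp L ℓ), (∀ (n : ℕ) (f : FN L), Deep G p n f → Deep G p n (H.T f)) →
    ∀ (a : ℕ) (g : FN L), H.T U = U ^ a * g ^ p → (a : ZMod p) ≠ (ℓ : ZMod p) + 1 →
    ∀ t : FN L, Deep G p 2 (U * t ^ p) → IsRat I p L W G t

/-- The sheets without the statement on the uniformiser. -/
structure PreSheets {E F : Type*} [Field E] [Field F] [Algebra E F] (p : ℕ) (σ : F ≃ₐ[E] F)
    (V : ValuationSubring E) (W : ZMod p → ValuationSubring F) : Prop where
  lies : ∀ i (z : E), algebraMap E F z ∈ W i ↔ z ∈ V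
  shift : ∀ i (z : F), σ z ∈ W i ↔ z ∈ W (i + 1)
  inj : Function.Injective W

/-- **Node Sheet.** -/
def NodeSheet : Prop :=
  ∀ (K : Type) [Field K] [Algebra ℚ K] [Algebra K Kbar] (A : ValuationSubring Kbar)
    (I : Subgroup S44.GQ) (p L : ℕ) [NeZero L], p.Prime → p ≠ 2 → A.LiesOverPrime p → IsFix K I →
    ∀ (U : FN L) (W : LaurentSeries Kbar), RootData I p L U W →
    ∀ ζ : Kbar, IsPrimitiveRoot ζ p →
    ∀ (σ : FY K L W ≃ₐ[FK K L] FY K L W) (γ : FYb L W ≃ₐ[FN L] FYb L W), IsDeck ζ σ γ →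
    ∀ (G : ValuationSubring (FN L)), GHyp A I L G →
      (∀ n : ℕ, ∃ t : FN L, t ≠ 0 ∧ Deep G p n (U * t ^ p)) →
      (∀ t : FN L, Deep G p 2 (U * t ^ p) → IsRat I p L W G t) →
      ∃ (Wv : ZMod p → ValuationSubring (FY K L W)) (Wb : ValuationSubring (FYb L W)),
        PreSheets p σ (G.comap (bcX K L)) Wv ∧
        (∀ z : FN L, algebraMap (FN L) (FYb L W) z ∈ Wb ↔ z ∈ G) ∧
        (∀ z : FY K L W, z ∈ Wv 0 ↔ bcY K L W z ∈ Wb) ∧
        ∀ b : FYb L W, b ≠ 0 → ∃ b₀ : FN L, b₀ ≠ 0 ∧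
          Wb.valuation (b / algebraMap (FN L) (FYb L W) b₀ - 1) < 1

/-- **Node Unif**: `p` distinct sheets in a cyclic extension of degree `p` are unramified. -/
def NodeUnif : Prop :=
  ∀ (E F : Type) [Field E] [Field F] [Algebra E F] (p : ℕ) (σ : F ≃ₐ[E] F), p.Prime →
    σ ^ p = 1 → (∀ z, σ z = z → z ∈ (algebraMap E F).range) →
    ∀ (V : ValuationSubring E) (W : ZMod p → ValuationSubring F), PreSheets p σ V W →
      IsUnif V (p : E) → ∀ i, IsUnif (W i) (p : F)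

end Fermat.Agent.S44.X.Cover

end
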